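import Mathlib

/-!
# S18 / Theorem T: `spec_laurent` is a corollary of `spec_poly`  (helper5151)

`spec_poly`, `spec_laurent` are the two generic statements (C3) of `Fermat/Agent/S18/TInt.lean`
(T-architect helper2926): bases `A[x]` and `A[x, 1/x]`.  This file proves the second from the first
(`spec_laurent_of_poly`; Mathlib only; the definitions `Unbranched`, `UnbranchedL` of TInt are unfolded
in the statement) by the change of coordinate

    η := (ξ - a₁)^m / ξ,      a₁ ∈ A a lift of ā ≠ 0,  m ∈ {2, 3} prime to the residue characteristic.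

* `𝒪` is a finitely generated `A[η]`-module (`ξ` is integral over `A[η]`, `ξ⁻¹ ∈ A[η][ξ]`);
* `[K(x) : K(w)] = m` for `w = (x - a)^m / x` over any field (`RatFunc.finrank_eq_max_natDegree`),
  and `K(x)/K(w)` is separable;
* the only exceptional value of `η` in the residue class of `0` is `0`.
-/

set_option autoImplicit false

namespace Fermat.Agent.S18.T5151

open Polynomial IntermediateField

section Deg

variable {K : Type*} [Field K] {M : Type*} [Field M] [Algebra K M]

/-- `(X - a)^m / X` in `RatFunc K`. -/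
noncomputable def ratW (a : K) (m : ℕ) : RatFunc K :=
  algebraMap K[X] (RatFunc K) ((X - C a) ^ m) / algebraMap K[X] (RatFunc K) X

theorem ratW_num_denom {a : K} (ha : a ≠ 0) (m : ℕ) :
    (ratW a m).num = (X - C a) ^ m ∧ (ratW a m).denom = X := by
  set f := ratW a m with hf
  have hcop : IsCoprime ((X - C a) ^ m : K[X]) X := by
    apply IsCoprime.pow_left
    refine ⟨-C a⁻¹, C a⁻¹, ?_⟩
    have : (C a⁻¹ : K[X]) * C a = 1 := by rw [← C_mul, inv_mul_cancel₀ ha, C_1]
    linear_combination this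
  have hX0 : (algebraMap K[X] (RatFunc K) X) ≠ 0 := by
    rw [Ne, map_eq_zero_iff _ (IsFractionRing.injective K[X] (RatFunc K))]
    exact X_ne_zero
  have hd0 : (algebraMap K[X] (RatFunc K) f.denom) ≠ 0 := by
    rw [Ne, map_eq_zero_iff _ (IsFractionRing.injective K[X] (RatFunc K))]
    exact f.denom_ne_zero
  have hcross : f.num * X = (X - C a) ^ m * f.denom := by
    apply IsFractionRing.injective K[X] (RatFunc K)
    have h1 : algebraMap K[X] (RatFunc K) f.num / algebraMap K[X] (RatFunc K) f.denom =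
        algebraMap K[X] (RatFunc K) ((X - C a) ^ m) / algebraMap K[X] (RatFunc K) X :=
      f.num_div_denom
    rw [div_eq_div_iff hd0 hX0] at h1
    rw [map_mul, map_mul]
    exact h1
  have hdvd1 : f.denom ∣ X := RatFunc.denom_div_dvd _ _
  have hdvd2 : (X : K[X]) ∣ f.denom := by
    have : (X : K[X]) ∣ (X - C a) ^ m * f.denom := ⟨f.num, by rw [← hcross]; ring⟩
    exact hcop.symm.dvd_of_dvd_mul_left this
  have hden : f.denom = X :=
    eq_of_monic_of_associated f.monic_denom monic_X (associated_of_dvd_dvd hdvd1 hdvd2)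
  refine ⟨?_, hden⟩
  rw [hden] at hcross
  exact mul_right_cancel₀ X_ne_zero hcross

theorem finrank_ratW {a : K} (ha : a ≠ 0) {m : ℕ} (hm : 1 ≤ m) :
    Module.finrank K⟮ratW a m⟯ (RatFunc K) = m := by
  rw [RatFunc.finrank_eq_max_natDegree, (ratW_num_denom ha m).1, (ratW_num_denom ha m).2,
    natDegree_pow, natDegree_X_sub_C, natDegree_X, mul_one]
  exact max_eq_left hm

/-- The embedding `K(X) → M`, `X ↦ x`, for a transcendental `x`. -/
noncomputable def ratEmb (x : M) (hx : Transcendental K x) : RatFunc K →ₐ[K] M :=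
  RatFunc.liftAlgHom (aeval x)
    (nonZeroDivisors_le_comap_nonZeroDivisors_of_injective _
      (transcendental_iff_injective.mp hx))

theorem ratEmb_algebraMap (x : M) (hx : Transcendental K x) (p : K[X]) :
    ratEmb x hx (algebraMap K[X] (RatFunc K) p) = aeval x p := by
  have h := RatFunc.liftAlgHom_apply_div (aeval x)
    (nonZeroDivisors_le_comap_nonZeroDivisors_of_injective _
      (transcendental_iff_injective.mp hx)) p 1
  rw [map_one, div_one, map_one, div_one] at h
  exact h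

theorem ratEmb_ratW (x : M) (hx : Transcendental K x) (a : K) (m : ℕ) :
    ratEmb x hx (ratW a m) = (x - algebraMap K M a) ^ m / x := by
  rw [ratW, map_div₀, ratEmb_algebraMap, ratEmb_algebraMap]
  simp

theorem map_top_ratEmb (x : M) (hx : Transcendental K x) :
    (⊤ : IntermediateField K (RatFunc K)).map (ratEmb x hx) = K⟮x⟯ := by
  rw [← RatFunc.adjoin_X, adjoin_map, Set.image_singleton]
  congr 2
  have := ratEmb_algebraMap x hx X
  rw [aeval_X, RatFunc.algebraMap_X] at this
  exact this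

/-- `[K(x) : K(w)] = m` for `w = (x - a)^m / x`, and consequences. -/
theorem finrank_adjoin_w {x : M} (hx : Transcendental K x) {a : K} (ha : a ≠ 0) {m : ℕ}
    (hm : 1 ≤ m) :
    K⟮(x - algebraMap K M a) ^ m / x⟯ ≤ K⟮x⟯ ∧
    Module.finrank K⟮(x - algebraMap K M a) ^ m / x⟯ M = m * Module.finrank K⟮x⟯ M := by
  have hle : K⟮(x - algebraMap K M a) ^ m / x⟯ ≤ K⟮x⟯ := by
    rw [adjoin_simple_le_iff]
    exact div_mem (pow_mem (sub_mem (mem_adjoin_simple_self K x) (IntermediateField.algebraMap_mem _ a)) m)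
      (mem_adjoin_simple_self K x)
  refine ⟨hle, ?_⟩
  rw [← relfinrank_mul_finrank_top hle]
  congr 1
  have h1 : (K⟮ratW a m⟯).map (ratEmb x hx) = K⟮(x - algebraMap K M a) ^ m / x⟯ := by
    rw [adjoin_map, Set.image_singleton, ratEmb_ratW]
  rw [← h1, ← map_top_ratEmb x hx, relfinrank_map_map, relfinrank_top_right, finrank_ratW ha hm]

theorem transcendental_w {x : M} (hx : Transcendental K x) {a : K} (ha : a ≠ 0) (m : ℕ) : Transcendental K ((x - algebraMap K M a) ^ m / x) := by
  rw [← ratEmb_ratW x hx a m]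
  have hinj : Function.Injective (ratEmb x hx) := (ratEmb x hx).toRingHom.injective
  rw [Transcendental, isAlgebraic_algHom_iff _ hinj]
  apply RatFunc.transcendental_of_ne_C
  rintro ⟨c, hc⟩
  have h1 := (ratW_num_denom ha m).2
  rw [hc, RatFunc.denom_C] at h1
  have := congrArg natDegree h1
  simp at this

theorem isSeparable_of_simple_root {F : Type*} [Field F] {E : Type*} [Field E] [Algebra F E]
    {x : E} (H : F[X]) (h0 : aeval x H = 0) (h1 : aeval x (derivative H) ≠ 0) :
    IsSeparable F x := by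
  have hH0 : H ≠ 0 := by
    rintro rfl
    simp at h1
  have hint : IsIntegral F x := IsAlgebraic.isIntegral (⟨H, hH0, h0⟩ : IsAlgebraic F x)
  have hirr := minpoly.irreducible hint
  rw [IsSeparable, separable_iff_derivative_ne_zero hirr]
  intro hd
  obtain ⟨g, hg⟩ := minpoly.dvd F x h0
  apply h1
  rw [hg, derivative_mul, hd, zero_mul, zero_add, map_mul, minpoly.aeval, zero_mul]

theorem isSeparable_x_over_w {x : M} (hx : Transcendental K x) {a : K} (ha : a ≠ 0) {m : ℕ}
    (hm : 1 ≤ m) : IsSeparable K⟮(x - algebraMap K M a) ^ m / x⟯ x := by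
  set w : M := (x - algebraMap K M a) ^ m / x with hw
  have hx0 : x ≠ 0 := fun h => hx (h ▸ isAlgebraic_zero)
  let w' : K⟮w⟯ := ⟨w, mem_adjoin_simple_self K w⟩
  let H : K⟮w⟯[X] := (X - C (algebraMap K K⟮w⟯ a)) ^ m - C w' * X
  have hwx : w * x = (x - algebraMap K M a) ^ m := by
    rw [hw, div_mul_cancel₀ _ hx0]
  refine isSeparable_of_simple_root H ?_ ?_
  · simp only [H, map_sub, map_pow, aeval_X, aeval_C, map_mul]
    rw [IntermediateField.algebraMap_apply, IntermediateField.algebraMap_apply]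
    show (x - _) ^ m - w * x = 0
    rw [hwx]
    exact sub_self _
  · obtain ⟨n, rfl⟩ : ∃ n, m = n + 1 := ⟨m - 1, by omega⟩
    have hd : derivative H = C ((n + 1 : ℕ) : K⟮w⟯) * (X - C (algebraMap K K⟮w⟯ a)) ^ n - C w' := by
      simp only [H, derivative_sub, derivative_mul, derivative_C, zero_mul, derivative_X, mul_one,
        zero_add, derivative_X_sub_C_pow, Nat.add_sub_cancel]
    rw [hd]
    simp only [map_sub, map_pow, aeval_X, aeval_C, map_mul, map_natCast]
    rw [IntermediateField.algebraMap_apply, IntermediateField.algebraMap_apply]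
    show ((n + 1 : ℕ) : M) * (x - algebraMap K M a) ^ n - w ≠ 0
    intro h0
    -- multiply by x
    have h1 : ((n + 1 : ℕ) : M) * (x - algebraMap K M a) ^ n * x
        = (x - algebraMap K M a) ^ (n + 1) := by
      rw [← hwx]
      linear_combination x * h0
    have hxa : x - algebraMap K M a ≠ 0 := by
      intro h
      apply hx
      rw [sub_eq_zero.mp h]
      exact isAlgebraic_algebraMap a
    have h2 : ((n + 1 : ℕ) : M) * x = x - algebraMap K M a := by
      have h3 : (x - algebraMap K M a) ^ n * (((n + 1 : ℕ) : M) * x) =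
          (x - algebraMap K M a) ^ n * (x - algebraMap K M a) := by
        rw [← pow_succ, ← h1]; ring
      exact mul_left_cancel₀ (pow_ne_zero n hxa) h3
    -- `n x + a = 0` contradicts transcendence
    have h4 : aeval x (C (n : K) * X + C a) = 0 := by
      simp only [map_add, map_mul, aeval_C, aeval_X, map_natCast]
      push_cast at h2
      linear_combination h2
    have h5 : (C (n : K) * X + C a : K[X]) ≠ 0 := by
      intro h
      have := congrArg (fun p => p.coeff 0) h
      simp at this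
      exact ha this
    exact hx ⟨_, h5, h4⟩

theorem isSeparable_over_w {x : M} (hx : Transcendental K x) {a : K} (ha : a ≠ 0) {m : ℕ}
    (hm : 1 ≤ m) [Algebra.IsSeparable K⟮x⟯ M] :
    Algebra.IsSeparable K⟮(x - algebraMap K M a) ^ m / x⟯ M := by
  set w : M := (x - algebraMap K M a) ^ m / x with hw
  have hsx : IsSeparable K⟮w⟯ x := isSeparable_x_over_w hx ha hm
  let E' : IntermediateField K⟮w⟯ M := K⟮w⟯⟮x⟯
  have : Algebra.IsSeparable K⟮w⟯ E' :=
    (isSeparable_adjoin_simple_iff_isSeparable K⟮w⟯ M).2 hsx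
  have hle : K⟮x⟯ ≤ E'.restrictScalars K := by
    rw [adjoin_simple_le_iff]
    exact mem_adjoin_simple_self _ x
  let φ : K⟮x⟯ →+* E' :=
    { toFun := fun z => ⟨z.1, hle z.2⟩
      map_one' := rfl
      map_mul' := fun _ _ => rfl
      map_zero' := rfl
      map_add' := fun _ _ => rfl }
  let _ : Algebra K⟮x⟯ E' := φ.toAlgebra
  have : IsScalarTower K⟮x⟯ E' M := IsScalarTower.of_algebraMap_eq (fun _ => rfl)
  refine ⟨fun y => ?_⟩
  have hy : IsSeparable K⟮x⟯ y := Algebra.IsSeparable.isSeparable _ y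
  have hy' : IsSeparable E' y := hy.tower_top E'
  exact IsSeparable.of_algebra_isSeparable_of_isSeparable K⟮w⟯ hy'

theorem finiteDimensional_over_w {x : M} (hx : Transcendental K x) {a : K} (ha : a ≠ 0) {m : ℕ}
    (hm : 1 ≤ m) [FiniteDimensional K⟮x⟯ M] :
    FiniteDimensional K⟮(x - algebraMap K M a) ^ m / x⟯ M := by
  apply Module.finite_of_finrank_pos
  rw [(finrank_adjoin_w hx ha hm).2]
  exact Nat.mul_pos hm Module.finrank_pos

end Deg

section Integral

variable {K : Type*} [Field K] {M : Type*} [Field M] [Algebra K M]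

theorem isIntegral_mono {S T : Subalgebra K M} (h : S ≤ T) {f : M} (hf : IsIntegral S f) :
    IsIntegral T f := by
  obtain ⟨p, hp, hpf⟩ := hf
  refine ⟨p.map (Subalgebra.inclusion h).toRingHom, hp.map _, ?_⟩
  rw [eval₂_map]
  exact hpf

theorem isIntegral_of_forall_isIntegral {R B : Subalgebra K M} (h : ∀ z ∈ B, IsIntegral R z)
    {f : M} (hf : IsIntegral B f) : IsIntegral R f := by
  let IC : Subalgebra R M := integralClosure R M
  let ψ : B →+* IC :=
    { toFun := fun z => ⟨z.1, h z.1 z.2⟩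
      map_one' := rfl
      map_mul' := fun _ _ => rfl
      map_zero' := rfl
      map_add' := fun _ _ => rfl }
  have hf' : IsIntegral IC f := by
    obtain ⟨p, hp, hpf⟩ := hf
    refine ⟨p.map ψ, hp.map _, ?_⟩
    rw [eval₂_map]
    exact hpf
  exact isIntegral_trans (R := R) (A := IC) f hf'

/-- `x` and `x⁻¹` are integral over `K[w]`, `w = (x - a)^m / x`, `m ≥ 2`, `a ≠ 0`. -/
theorem isIntegral_x_over_w {x : M} (hx0 : x ≠ 0) {a : K} (ha : a ≠ 0) {m : ℕ} (hm : 2 ≤ m) :
    IsIntegral (Algebra.adjoin K {(x - algebraMap K M a) ^ m / x}) x ∧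
    IsIntegral (Algebra.adjoin K {(x - algebraMap K M a) ^ m / x}) x⁻¹ := by
  set w : M := (x - algebraMap K M a) ^ m / x with hw
  set R : Subalgebra K M := Algebra.adjoin K {w} with hR
  have hwx : w * x = (x - algebraMap K M a) ^ m := by
    rw [hw, div_mul_cancel₀ _ hx0]
  let w' : R := ⟨w, Algebra.subset_adjoin (Set.mem_singleton w)⟩
  have hxint : IsIntegral R x := by
    refine ⟨(X - C (algebraMap K R a)) ^ m - C w' * X, ?_, ?_⟩
    · apply Monic.sub_of_left ((monic_X_sub_C _).pow m)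
      rw [degree_pow, degree_X_sub_C]
      calc (C w' * X : R[X]).degree ≤ 1 := by
            refine (degree_C_mul_X_le w').trans le_rfl
        _ < m • (1 : WithBot ℕ) := by
            rw [nsmul_eq_mul, mul_one]
            exact_mod_cast hm
    · simp only [eval₂_sub, eval₂_pow, eval₂_X, eval₂_C, eval₂_mul]
      show (x - algebraMap K M a) ^ m - w * x = 0
      rw [hwx, sub_self]
  refine ⟨hxint, ?_⟩
  -- `x⁻¹ = ((-a)^m)⁻¹ (w - g)`, `g = ∑ (x - a)^i (-a)^(m-1-i)`
  set b : M := algebraMap K M a with hb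
  have hb0 : b ≠ 0 := by
    rw [hb, Ne, map_eq_zero_iff _ (algebraMap K M).injective]
    exact ha
  set g : M := ∑ i ∈ Finset.range m, (x - b) ^ i * (-b) ^ (m - 1 - i) with hg
  have hgx : g * x = (x - b) ^ m - (-b) ^ m := by
    have := Commute.geom_sum₂_mul (Commute.all (x - b) (-b)) m
    rw [← this]
    ring
  have hinv : x⁻¹ = algebraMap K M (((-a) ^ m)⁻¹) * (w - g) := by
    have h1 : (w - g) * x = (-b) ^ m := by
      rw [sub_mul, hwx, hgx]; ring
    have h2 : (-b) ^ m ≠ 0 := pow_ne_zero _ (neg_ne_zero.mpr hb0)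
    have h3 : w - g ≠ 0 := by
      intro h
      rw [h, zero_mul] at h1
      exact h2 h1.symm
    rw [map_inv₀, map_pow, map_neg, ← hb, ← h1]
    field_simp
  rw [hinv]
  have hc : ∀ c : K, IsIntegral R (algebraMap K M c) := fun c =>
    isIntegral_algebraMap (x := algebraMap K R c)
  have hwint : IsIntegral R w := isIntegral_algebraMap (x := w')
  have hgint : IsIntegral R g := by
    refine IsIntegral.sum _ fun i _ => ?_
    refine IsIntegral.mul ((hxint.sub (hc a)).pow i) ?_
    exact ((hc a).neg).pow _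
  exact (hc _).mul (hwint.sub hgint)

theorem isIntegral_w_iff {x : M} (hx0 : x ≠ 0) {a : K} (ha : a ≠ 0) {m : ℕ} (hm : 2 ≤ m) (f : M) :
    IsIntegral (Algebra.adjoin K {(x - algebraMap K M a) ^ m / x}) f ↔
      IsIntegral (Algebra.adjoin K {x, x⁻¹}) f := by
  set w : M := (x - algebraMap K M a) ^ m / x with hw
  have hxB : x ∈ Algebra.adjoin K {x, x⁻¹} := Algebra.subset_adjoin (by simp)
  have hxiB : x⁻¹ ∈ Algebra.adjoin K {x, x⁻¹} := Algebra.subset_adjoin (by simp)
  constructor
  · refine isIntegral_mono (Algebra.adjoin_le ?_)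
    rintro _ rfl
    rw [hw, div_eq_mul_inv]
    exact Subalgebra.mul_mem _
      (Subalgebra.pow_mem _ (Subalgebra.sub_mem _ hxB (Subalgebra.algebraMap_mem _ a)) m) hxiB
  · refine isIntegral_of_forall_isIntegral fun z hz => ?_
    obtain ⟨h1, h2⟩ := isIntegral_x_over_w (K := K) hx0 ha hm
    induction hz using Algebra.adjoin_induction with
    | mem y hy =>
      rcases hy with rfl | rfl
      · exact h1
      · exact h2
    | algebraMap c =>
      exact isIntegral_algebraMap (x := algebraMap K (Algebra.adjoin K {w}) c)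
    | add y z _ _ hy hz => exact hy.add hz
    | mul y z _ _ hy hz => exact hy.mul hz

end Integral

section Branch

variable {L : Type*} [Field L] [IsAlgClosed L] {M : Type*} [Field M] [Algebra L M]

/-- Partial fractions: if `h` has only simple roots and `z / (x - α)` is integral for every root `α`
of `h` (whenever `z`, `z² / (x - α)` are), then the same holds for `h(x)` in place of `x - α`. -/
theorem isIntegral_div_aeval {x : M} (hx : Transcendental L x) (B : Subalgebra L M) (hxB : x ∈ B)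
    (h : L[X]) (hdeg : h.degree ≠ 0) (h0 : h ≠ 0)
    (hsep : ∀ β : L, h.eval β = 0 → (derivative h).eval β ≠ 0)
    (hP : ∀ α : L, h.eval α = 0 → ∀ z : M, IsIntegral B z →
      IsIntegral B (z ^ 2 / (x - algebraMap L M α)) → IsIntegral B (z / (x - algebraMap L M α)))
    (z : M) (hz : IsIntegral B z) (hz2 : IsIntegral B (z ^ 2 / aeval x h)) :
    IsIntegral B (z / aeval x h) := by
  classical
  have hinj : Function.Injective (aeval x : L[X] → M) := transcendental_iff_injective.mp hx
  have hne : ∀ u : L[X], u ≠ 0 → aeval x u ≠ 0 := fun u hu h' =>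
    hu (hinj (by rw [h', map_zero]))
  have hpolyInt : ∀ u : L[X], IsIntegral B (aeval x u) := by
    intro u
    have : aeval x u = ((aeval (⟨x, hxB⟩ : B) u : B) : M) :=
      Subalgebra.aeval_coe B ⟨x, hxB⟩ u
    rw [this]
    exact isIntegral_algebraMap (x := aeval (⟨x, hxB⟩ : B) u)
  let J : Ideal L[X] :=
    { carrier := {u | IsIntegral B (aeval x u * (z / aeval x h))}
      add_mem' := by
        intro u v hu hv
        show IsIntegral B (aeval x (u + v) * (z / aeval x h))
        rw [map_add, add_mul]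
        exact hu.add hv
      zero_mem' := by
        show IsIntegral B (aeval x (0 : L[X]) * (z / aeval x h))
        rw [map_zero, zero_mul]
        exact isIntegral_zero
      smul_mem' := by
        intro c u hu
        show IsIntegral B (aeval x (c • u) * (z / aeval x h))
        rw [smul_eq_mul, map_mul, mul_assoc]
        exact (hpolyInt c).mul hu }
  have hJ : ∀ u : L[X], u ∈ J ↔ IsIntegral B (aeval x u * (z / aeval x h)) := fun u => Iff.rfl
  -- the cofactor of a root lies in `J`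
  have hroot : ∀ α : L, h.eval α = 0 → ∀ q : L[X], h = (X - C α) * q → q ∈ J := by
    intro α hα q hq
    have hq0 : q ≠ 0 := by
      rintro rfl
      rw [mul_zero] at hq
      exact h0 hq
    have hxα : x - algebraMap L M α ≠ 0 := by
      have := hne (X - C α) (X_sub_C_ne_zero α)
      simpa using this
    have haq : aeval x h = (x - algebraMap L M α) * aeval x q := by
      rw [hq, map_mul]
      simp
    rw [hJ]
    have e1 : aeval x q * (z / aeval x h) = z / (x - algebraMap L M α) := by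
      rw [haq]
      have := hne q hq0
      field_simp
    rw [e1]
    apply hP α hα z hz
    have e2 : z ^ 2 / (x - algebraMap L M α) = aeval x q * (z ^ 2 / aeval x h) := by
      rw [haq]
      have := hne q hq0
      field_simp
    rw [e2]
    exact (hpolyInt q).mul hz2
  have hcof : ∀ α : L, h.eval α = 0 → ∃ q : L[X], h = (X - C α) * q := fun α hα =>
    dvd_iff_isRoot.mpr hα
  -- a generator
  obtain ⟨g, hg⟩ : ∃ g : L[X], J = Ideal.span {g} := ⟨_, (Ideal.span_singleton_generator J).symm⟩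
  obtain ⟨α₀, hα₀⟩ := IsAlgClosed.exists_root h hdeg
  obtain ⟨q₀, hq₀⟩ := hcof α₀ hα₀
  have hq₀J : q₀ ∈ J := hroot α₀ hα₀ q₀ hq₀
  have hq₀0 : q₀ ≠ 0 := by
    rintro rfl
    rw [mul_zero] at hq₀
    exact h0 hq₀
  have hg0 : g ≠ 0 := by
    rintro rfl
    rw [hg, Ideal.span_singleton_eq_bot.mpr rfl, Ideal.mem_bot] at hq₀J
    exact hq₀0 hq₀J
  have h1J : (1 : L[X]) ∈ J := by
    by_cases hgd : g.degree = 0
    · have hu : IsUnit g := isUnit_iff_degree_eq_zero.mpr hgd
      rw [hg, Ideal.span_singleton_eq_top.mpr hu]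
      exact Submodule.mem_top
    · exfalso
      obtain ⟨β, hβ⟩ := IsAlgClosed.exists_root g hgd
      have hgdvd : ∀ u ∈ J, u.eval β = 0 := by
        intro u hu
        rw [hg, Ideal.mem_span_singleton] at hu
        obtain ⟨t, rfl⟩ := hu
        rw [eval_mul, hβ.eq_zero, zero_mul]
      have hhβ : h.eval β = 0 := by
        rw [hq₀, eval_mul, hgdvd q₀ hq₀J, mul_zero]
      obtain ⟨q, hq⟩ := hcof β hhβ
      have hqβ : q.eval β = 0 := hgdvd q (hroot β hhβ q hq)
      apply hsep β hhβ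
      rw [hq, derivative_mul]
      simp [hqβ]
  rw [hJ, map_one, one_mul] at h1J
  exact h1J

/-- `Unbranched` for the coordinate `w = (x - a)^m / x` at `c` from `UnbranchedL` for `x` at the roots
of `(T - a)^m - c T`. -/
theorem unbranched_w {x : M} (hx : Transcendental L x) {a : L} (ha : a ≠ 0) {m : ℕ} (hm : 2 ≤ m)
    (c : L)
    (hsep : ∀ β : L, ((X - C a) ^ m - C c * X : L[X]).eval β = 0 →
      (derivative ((X - C a) ^ m - C c * X : L[X])).eval β ≠ 0)
    (hP : ∀ α : L, ((X - C a) ^ m - C c * X : L[X]).eval α = 0 → ∀ z : M,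
      IsIntegral (Algebra.adjoin L {x, x⁻¹}) z →
      IsIntegral (Algebra.adjoin L {x, x⁻¹}) (z ^ 2 / (x - algebraMap L M α)) →
      IsIntegral (Algebra.adjoin L {x, x⁻¹}) (z / (x - algebraMap L M α)))
    (z : M)
    (hz : IsIntegral (Algebra.adjoin L {(x - algebraMap L M a) ^ m / x}) z)
    (hz2 : IsIntegral (Algebra.adjoin L {(x - algebraMap L M a) ^ m / x})
      (z ^ 2 / ((x - algebraMap L M a) ^ m / x - algebraMap L M c))) :
    IsIntegral (Algebra.adjoin L {(x - algebraMap L M a) ^ m / x})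
      (z / ((x - algebraMap L M a) ^ m / x - algebraMap L M c)) := by
  have hx0 : x ≠ 0 := fun h => hx (h ▸ isAlgebraic_zero)
  set h : L[X] := (X - C a) ^ m - C c * X with hh
  have hmonic : h.Monic := by
    apply Monic.sub_of_left ((monic_X_sub_C _).pow m)
    rw [degree_pow, degree_X_sub_C]
    calc (C c * X : L[X]).degree ≤ 1 := degree_C_mul_X_le c
      _ < m • (1 : WithBot ℕ) := by
          rw [nsmul_eq_mul, mul_one]
          exact_mod_cast hm
  have hdeg : h.degree ≠ 0 := by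
    have h1 : h.degree = (m : WithBot ℕ) := by
      rw [hh, degree_sub_eq_left_of_degree_lt, degree_pow, degree_X_sub_C, nsmul_eq_mul, mul_one]
      rw [degree_pow, degree_X_sub_C]
      calc (C c * X : L[X]).degree ≤ 1 := degree_C_mul_X_le c
        _ < m • (1 : WithBot ℕ) := by
            rw [nsmul_eq_mul, mul_one]
            exact_mod_cast hm
    have hm0 : m ≠ 0 := by omega
    rw [h1, Nat.cast_withBot]
    intro h'
    exact hm0 (WithBot.coe_eq_zero.mp h')
  have h0 : h ≠ 0 := hmonic.ne_zero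
  have hah : aeval x h = (x - algebraMap L M a) ^ m - algebraMap L M c * x := by
    simp [hh]
  have hah0 : aeval x h ≠ 0 := fun h' =>
    h0 ((transcendental_iff_injective.mp hx) (by rw [h', map_zero]))
  set B : Subalgebra L M := Algebra.adjoin L {x, x⁻¹} with hB
  have hxB : x ∈ B := Algebra.subset_adjoin (by simp)
  have hxiB : x⁻¹ ∈ B := Algebra.subset_adjoin (by simp)
  have hxI : IsIntegral B x := isIntegral_algebraMap (x := (⟨x, hxB⟩ : B))
  have hxiI : IsIntegral B x⁻¹ := isIntegral_algebraMap (x := (⟨x⁻¹, hxiB⟩ : B))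
  have e0 : (x - algebraMap L M a) ^ m / x - algebraMap L M c = aeval x h / x := by
    rw [hah]; field_simp
  rw [e0] at hz2 ⊢
  rw [isIntegral_w_iff hx0 ha hm] at hz hz2 ⊢
  have hz2' : IsIntegral B (z ^ 2 / aeval x h) := by
    have : z ^ 2 / aeval x h = x⁻¹ * (z ^ 2 / (aeval x h / x)) := by field_simp
    rw [this]
    exact hxiI.mul hz2
  have key := isIntegral_div_aeval hx B hxB h hdeg h0 hsep hP z hz hz2'
  have : z / (aeval x h / x) = x * (z / aeval x h) := by field_simp
  rw [this]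
  exact hxI.mul key

end Branch

section Val

variable {L : Type*} [Field L] (A : ValuationSubring L)

/-- Roots of `(T - a₁)^m - c T`, `c ∈ 𝔪`, `c ≠ 0`: they lie in `A`, reduce to `ā₁`, differ from `a₁`,
and are simple when `m ≠ 0` in the residue field. -/
theorem root_facts (a₁ c : A) (hc : c ∈ IsLocalRing.maximalIdeal A) (hc0 : c ≠ 0) {m : ℕ}
    (hm : 2 ≤ m) (hmk : (m : IsLocalRing.ResidueField A) ≠ 0)
    (ha₁ : IsLocalRing.residue A a₁ ≠ 0) (β : L)
    (hβ : ((X - C (a₁ : L)) ^ m - C (c : L) * X : L[X]).eval β = 0) :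
    (∃ β' : A, (β' : L) = β ∧ IsLocalRing.residue A β' = IsLocalRing.residue A a₁ ∧ β' ≠ a₁) ∧
      (derivative ((X - C (a₁ : L)) ^ m - C (c : L) * X : L[X])).eval β ≠ 0 := by
  have hcres : IsLocalRing.residue A c = 0 := (IsLocalRing.residue_eq_zero_iff c).mpr hc
  -- `β` is integral over `A`
  have hint : IsIntegral A β := by
    refine ⟨(X - C a₁) ^ m - C c * X, ?_, ?_⟩
    · apply Monic.sub_of_left ((monic_X_sub_C _).pow m)
      rw [degree_pow, degree_X_sub_C]
      calc (C c * X : A[X]).degree ≤ 1 := degree_C_mul_X_le c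
        _ < m • (1 : WithBot ℕ) := by
            rw [nsmul_eq_mul, mul_one]
            exact_mod_cast hm
    · simp only [eval₂_sub, eval₂_pow, eval₂_X, eval₂_C, eval₂_mul]
      simp only [eval_sub, eval_pow, eval_X, eval_C, eval_mul] at hβ
      exact hβ
  obtain ⟨β', rfl⟩ := IsIntegrallyClosed.isIntegral_iff.mp hint
  have hβA : (β' - a₁) ^ m = c * β' := by
    apply Subtype.ext
    simp only [eval_sub, eval_pow, eval_X, eval_C, eval_mul] at hβ
    have : ((β' : L) - (a₁ : L)) ^ m = (c : L) * (β' : L) := sub_eq_zero.mp hβ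
    exact_mod_cast this
  have hres : IsLocalRing.residue A β' = IsLocalRing.residue A a₁ := by
    have h1 := congrArg (IsLocalRing.residue A) hβA
    rw [map_pow, map_sub, map_mul, hcres, zero_mul] at h1
    exact sub_eq_zero.mp (pow_eq_zero_iff (by omega : m ≠ 0) |>.mp h1)
  have ha₁0 : a₁ ≠ 0 := by
    rintro rfl
    exact ha₁ (map_zero _)
  have hne : β' ≠ a₁ := by
    rintro rfl
    rw [sub_self, zero_pow (by omega : m ≠ 0)] at hβA
    rcases mul_eq_zero.mp hβA.symm with h | h
    · exact hc0 h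
    · exact ha₁0 h
  refine ⟨⟨β', rfl, hres, hne⟩, ?_⟩
  obtain ⟨n, rfl⟩ : ∃ n, m = n + 1 := ⟨m - 1, by omega⟩
  have hd : derivative ((X - C (a₁ : L)) ^ (n + 1) - C (c : L) * X : L[X]) =
      C ((n + 1 : ℕ) : L) * (X - C (a₁ : L)) ^ n - C (c : L) := by
    simp only [derivative_sub, derivative_mul, derivative_C, zero_mul, derivative_X, mul_one,
      zero_add, derivative_X_sub_C_pow, Nat.add_sub_cancel]
  rw [hd]
  simp only [eval_sub, eval_pow, eval_X, eval_C, eval_mul]
  intro h0
  have h0A : ((n + 1 : ℕ) : A) * (β' - a₁) ^ n = c := by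
    apply Subtype.ext
    have : ((n + 1 : ℕ) : L) * ((β' : L) - (a₁ : L)) ^ n = (c : L) := sub_eq_zero.mp h0
    exact_mod_cast this
  -- `c * ((n+1) β' - β' + a₁) = 0`
  have h1 : c * (((n + 1 : ℕ) : A) * β' - β' + a₁) = 0 := by
    have h2 : ((n + 1 : ℕ) : A) * (β' - a₁) ^ (n + 1) = c * (β' - a₁) := by
      rw [pow_succ, ← mul_assoc, h0A]
    rw [hβA] at h2
    linear_combination h2
  have h3 : ((n + 1 : ℕ) : A) * β' - β' + a₁ = 0 := (mul_eq_zero.mp h1).resolve_left hc0
  have h4 := congrArg (IsLocalRing.residue A) h3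
  rw [map_add, map_sub, map_mul, map_natCast, hres, map_zero] at h4
  have h5 : ((n + 1 : ℕ) : IsLocalRing.ResidueField A) * IsLocalRing.residue A a₁ = 0 := by
    linear_combination h4
  rcases mul_eq_zero.mp h5 with h | h
  · exact hmk h
  · exact ha₁ h

end Val

section Main

variable {L : Type*} [Field L] [IsAlgClosed L] [CharZero L] (A : ValuationSubring L)
variable {F : Type*} [Field F] [Algebra L F]
variable {E : Type*} [Field E] [Algebra (IsLocalRing.ResidueField A) E]
variable {𝒪 : Type*} [CommRing 𝒪]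

omit [IsAlgClosed L] [CharZero L] in
/-- A ring which is finitely generated over `A[ξ, ξ⁻¹]` is finitely generated over `A[η]`,
`η = (ξ - a₁)^m ξ⁻¹` (`a₁` a unit of `A`, `m ≥ 2`). -/
theorem exists_fg_eta (cst : A →+* 𝒪) (ξ ξi : 𝒪) (hξ : ξ * ξi = 1) (a₁ : A) (ha₁ : IsUnit a₁)
    {m : ℕ} (hm : 2 ≤ m)
    (hfg : ∃ s : Finset 𝒪, ∀ y : 𝒪, ∃ (m' : ℕ) (p : 𝒪 → A[X]),
      ξ ^ m' * y = ∑ e ∈ s, (p e).eval₂ cst ξ * e) :
    ∃ s : Finset 𝒪, ∀ y : 𝒪, ∃ p : 𝒪 → A[X],
      y = ∑ e ∈ s, (p e).eval₂ cst ((ξ - cst a₁) ^ m * ξi) * e := by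
  classical
  set η : 𝒪 := (ξ - cst a₁) ^ m * ξi with hη
  let alg : Algebra A[X] 𝒪 := (Polynomial.eval₂RingHom cst η).toAlgebra
  have halg : ∀ p : A[X], algebraMap A[X] 𝒪 p = p.eval₂ cst η := fun p => rfl
  have hηξ : η * ξ = (ξ - cst a₁) ^ m := by rw [hη, mul_assoc, mul_comm ξi ξ, hξ, mul_one]
  have hξint : IsIntegral A[X] ξ := by
    refine ⟨(X - C (C a₁)) ^ m - C X * X, ?_, ?_⟩
    · apply Monic.sub_of_left ((monic_X_sub_C _).pow m)
      rw [degree_pow, degree_X_sub_C]
      calc (C (X : A[X]) * X : A[X][X]).degree ≤ 1 := degree_C_mul_X_le _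
        _ < m • (1 : WithBot ℕ) := by
            rw [nsmul_eq_mul, mul_one]
            exact_mod_cast hm
    · simp only [eval₂_sub, eval₂_pow, eval₂_X, eval₂_C, eval₂_mul, halg]
      rw [hηξ, sub_self]
  let S₀ : Subalgebra A[X] 𝒪 := Algebra.adjoin A[X] {ξ}
  have : Module.Finite A[X] S₀ := Algebra.finite_adjoin_simple_of_isIntegral hξint
  have hξS : ξ ∈ S₀ := Algebra.subset_adjoin (Set.mem_singleton ξ)
  have hcstS : ∀ a : A, cst a ∈ S₀ := fun a => by
    have : cst a = algebraMap A[X] 𝒪 (C a) := by rw [halg, eval₂_C]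
    rw [this]
    exact Subalgebra.algebraMap_mem _ _
  have hηS : η ∈ S₀ := by
    have : η = algebraMap A[X] 𝒪 X := by rw [halg, eval₂_X]
    rw [this]
    exact Subalgebra.algebraMap_mem _ _
  obtain ⟨u, hu⟩ := ((ha₁.neg).pow m).exists_left_inv
  set g : 𝒪 := ∑ i ∈ Finset.range m, (ξ - cst a₁) ^ i * (-cst a₁) ^ (m - 1 - i) with hg
  have hgξ : g * ξ = (ξ - cst a₁) ^ m - (-cst a₁) ^ m := by
    have := Commute.geom_sum₂_mul (Commute.all (ξ - cst a₁) (-cst a₁)) m
    rw [← this]
    ring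
  have hξi : ξi = cst u * (η - g) := by
    have h1 : (η - g) * ξ = (-cst a₁) ^ m := by
      rw [sub_mul, hηξ, hgξ]; ring
    have h2 : cst u * (-cst a₁) ^ m = 1 := by
      rw [← map_neg, ← map_pow, ← map_mul, hu, map_one]
    calc ξi = (cst u * (-cst a₁) ^ m) * ξi := by rw [h2, one_mul]
      _ = cst u * ((η - g) * ξ) * ξi := by rw [h1]
      _ = cst u * (η - g) * (ξ * ξi) := by ring
      _ = cst u * (η - g) := by rw [hξ, mul_one]
  have hgS : g ∈ S₀ := Subalgebra.sum_mem _ fun i _ =>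
    Subalgebra.mul_mem _ (Subalgebra.pow_mem _ (Subalgebra.sub_mem _ hξS (hcstS a₁)) i)
      (Subalgebra.pow_mem _ (Subalgebra.neg_mem _ (hcstS a₁)) _)
  have hξiS : ξi ∈ S₀ := by
    rw [hξi]
    exact Subalgebra.mul_mem _ (hcstS u) (Subalgebra.sub_mem _ hηS hgS)
  have hevS : ∀ p : A[X], p.eval₂ cst ξ ∈ S₀ := by
    intro p
    rw [eval₂_eq_sum_range]
    exact Subalgebra.sum_mem _ fun i _ =>
      Subalgebra.mul_mem _ (hcstS _) (Subalgebra.pow_mem _ hξS i)
  obtain ⟨s, hs⟩ := hfg
  have : Module.Finite S₀ 𝒪 := by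
    refine ⟨⟨s, eq_top_iff.mpr fun y _ => ?_⟩⟩
    obtain ⟨m', p, hp⟩ := hs y
    have hy : y = ∑ e ∈ s, (⟨ξi ^ m' * (p e).eval₂ cst ξ,
        Subalgebra.mul_mem _ (Subalgebra.pow_mem _ hξiS m') (hevS _)⟩ : S₀) • e := by
      have h1 : ξi ^ m' * (ξ ^ m' * y) = y := by
        rw [← mul_assoc, ← mul_pow, mul_comm ξi ξ, hξ, one_pow, one_mul]
      rw [← h1, hp, Finset.mul_sum]
      refine Finset.sum_congr rfl fun e _ => ?_
      rw [← mul_assoc]
      rfl
    rw [hy]
    exact Submodule.sum_mem _ fun e he => Submodule.smul_mem _ _ (Submodule.subset_span he)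
  have : Module.Finite A[X] 𝒪 := Module.Finite.trans S₀ 𝒪
  obtain ⟨s', hs'⟩ := (Module.Finite.fg_top : (⊤ : Submodule A[X] 𝒪).FG)
  refine ⟨s', fun y => ?_⟩
  have hy : y ∈ Submodule.span A[X] (s' : Set 𝒪) := by
    rw [hs']
    exact Submodule.mem_top
  obtain ⟨p, -, hp⟩ := Submodule.mem_span_finset.mp hy
  exact ⟨p, hp.symm⟩

omit [IsAlgClosed L] [CharZero L] in
/-- Transfer of the denominator: `s(w̄)`, `s(0) ≠ 0`, becomes `x̄^{-d} s'(x̄)` with `s'(ā) ≠ 0`. -/
theorem exists_poly_transfer {k : Type*} [Field k] {E' : Type*} [Field E'] [Algebra k E'] (xb : E')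
    (hxb0 : xb ≠ 0) (ab : k) (hab : ab ≠ 0) {m : ℕ} (hm : 1 ≤ m) (s : k[X])
    (hs : s.eval 0 ≠ 0) :
    ∃ (s' : k[X]) (d : ℕ), s'.eval ab ≠ 0 ∧
      aeval xb s' = xb ^ d * aeval ((xb - algebraMap k E' ab) ^ m / xb) s := by
  classical
  set d := s.natDegree with hd
  refine ⟨∑ i ∈ Finset.range (d + 1), C (s.coeff i) * (X - C ab) ^ (m * i) * X ^ (d - i), d, ?_, ?_⟩
  · rw [eval_finsetSum, Finset.sum_eq_single 0]
    · simp only [mul_zero, pow_zero, mul_one, Nat.sub_zero, eval_mul, eval_C, eval_pow, eval_X]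
      rw [coeff_zero_eq_eval_zero]
      exact mul_ne_zero hs (pow_ne_zero _ hab)
    · intro i _ hi
      have : m * i ≠ 0 := Nat.mul_ne_zero (by omega) hi
      simp [this]
    · intro h
      exact absurd (Finset.mem_range.mpr (Nat.succ_pos d)) h
  · rw [map_sum, aeval_eq_sum_range, Finset.mul_sum]
    refine Finset.sum_congr rfl fun i hi => ?_
    have hi' : i ≤ d := Nat.lt_succ_iff.mp (Finset.mem_range.mp hi)
    obtain ⟨j, hj⟩ : ∃ j, d = i + j := ⟨d - i, by omega⟩
    rw [hj, Nat.add_sub_cancel_left]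
    simp only [map_mul, aeval_C, map_pow, map_sub, aeval_X, Algebra.smul_def, div_pow, ← pow_mul]
    field_simp
    ring

end Main

section Final

variable {L : Type*} [Field L] [IsAlgClosed L] [CharZero L] (A : ValuationSubring L)
variable {F : Type*} [Field F] [Algebra L F]
variable {E : Type*} [Field E] [Algebra (IsLocalRing.ResidueField A) E]
variable {𝒪 : Type*} [CommRing 𝒪]

omit [CharZero L] in
/-- **`spec_laurent` from `spec_poly`.**  The hypothesis `hpoly` is the statement `spec_poly` of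
`Fermat/Agent/S18/TInt.lean` (for the given `A`, `F`, `E`, `𝒪`; `Unbranched` unfolded); the rest is the
statement `spec_laurent` (`UnbranchedL` unfolded). -/
theorem spec_laurent_of_poly
    (hpoly : ∀ (cst : A →+* 𝒪) (gen : 𝒪 →+* F) (red : 𝒪 →+* E)
      (_ : Function.Injective gen)
      (_ : ∀ a : A, gen (cst a) = algebraMap L F (a : L))
      (_ : ∀ a : A, red (cst a) =
        algebraMap (IsLocalRing.ResidueField A) E (IsLocalRing.residue A a))
      (ξ : 𝒪)
      (_ : Transcendental L (gen ξ))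
      (_ : Transcendental (IsLocalRing.ResidueField A) (red ξ))
      (_ : FiniteDimensional L⟮gen ξ⟯ F)
      (_ : FiniteDimensional (IsLocalRing.ResidueField A)⟮red ξ⟯ E)
      (_ : Algebra.IsSeparable (IsLocalRing.ResidueField A)⟮red ξ⟯ E)
      (_ : Module.finrank (IsLocalRing.ResidueField A)⟮red ξ⟯ E = Module.finrank L⟮gen ξ⟯ F)
      (_ : ∀ y : 𝒪, red y = 0 →
        ∃ c : A, c ∈ IsLocalRing.maximalIdeal A ∧ ∃ y' : 𝒪, y = cst c * y')
      (_ : ∃ s : Finset 𝒪, ∀ y : 𝒪, ∃ p : 𝒪 → A[X], y = ∑ e ∈ s, (p e).eval₂ cst ξ * e)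
      (_ : ∀ f : F, IsIntegral (Algebra.adjoin L {gen ξ}) f →
        ∃ (c : L) (y : 𝒪), f = algebraMap L F c * gen y)
      (_ : ∀ f : E, ∃ y₁ y₂ : 𝒪, red y₂ ≠ 0 ∧ f * red y₂ = red y₁)
      (ab : IsLocalRing.ResidueField A)
      (_ : ∃ a₀ : A, ∀ a : A, IsLocalRing.residue A a = ab → a ≠ a₀ →
        ∀ z : F, IsIntegral (Algebra.adjoin L {gen ξ}) z →
          IsIntegral (Algebra.adjoin L {gen ξ}) (z ^ 2 / (gen ξ - algebraMap L F (a : L))) →
          IsIntegral (Algebra.adjoin L {gen ξ}) (z / (gen ξ - algebraMap L F (a : L))))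
      (f : E) (_ : IsIntegral (Algebra.adjoin (IsLocalRing.ResidueField A) {red ξ}) f),
      ∃ (s : (IsLocalRing.ResidueField A)[X]) (y : 𝒪),
        s.eval ab ≠ 0 ∧ Polynomial.aeval (red ξ) s * f = red y)
    (cst : A →+* 𝒪) (gen : 𝒪 →+* F) (red : 𝒪 →+* E)
    (hgen : Function.Injective gen)
    (hgen_cst : ∀ a : A, gen (cst a) = algebraMap L F (a : L))
    (hred_cst : ∀ a : A, red (cst a) =
      algebraMap (IsLocalRing.ResidueField A) E (IsLocalRing.residue A a))
    (ξ : 𝒪) (hξ : IsUnit ξ)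
    (hxL : Transcendental L (gen ξ))
    (hxk : Transcendental (IsLocalRing.ResidueField A) (red ξ))
    (hFfin : FiniteDimensional L⟮gen ξ⟯ F)
    (hEfin : FiniteDimensional (IsLocalRing.ResidueField A)⟮red ξ⟯ E)
    (hEsep : Algebra.IsSeparable (IsLocalRing.ResidueField A)⟮red ξ⟯ E)
    (hdeg : Module.finrank (IsLocalRing.ResidueField A)⟮red ξ⟯ E = Module.finrank L⟮gen ξ⟯ F)
    (hker : ∀ y : 𝒪, red y = 0 →
      ∃ c : A, c ∈ IsLocalRing.maximalIdeal A ∧ ∃ y' : 𝒪, y = cst c * y')
    (hfg : ∃ s : Finset 𝒪, ∀ y : 𝒪, ∃ (m : ℕ) (p : 𝒪 → A[X]),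
      ξ ^ m * y = ∑ e ∈ s, (p e).eval₂ cst ξ * e)
    (hint : ∀ f : F, IsIntegral (Algebra.adjoin L {gen ξ, (gen ξ)⁻¹}) f →
      ∃ (c : L) (y : 𝒪), f = algebraMap L F c * gen y)
    (hfrac : ∀ f : E, ∃ y₁ y₂ : 𝒪, red y₂ ≠ 0 ∧ f * red y₂ = red y₁)
    (ab : IsLocalRing.ResidueField A) (hab : ab ≠ 0)
    (hbranch : ∃ a₀ : A, ∀ a : A, IsLocalRing.residue A a = ab → a ≠ a₀ →
      ∀ z : F, IsIntegral (Algebra.adjoin L {gen ξ, (gen ξ)⁻¹}) z →
        IsIntegral (Algebra.adjoin L {gen ξ, (gen ξ)⁻¹})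
          (z ^ 2 / (gen ξ - algebraMap L F (a : L))) →
        IsIntegral (Algebra.adjoin L {gen ξ, (gen ξ)⁻¹}) (z / (gen ξ - algebraMap L F (a : L))))
    (f : E)
    (hf : IsIntegral (Algebra.adjoin (IsLocalRing.ResidueField A) {red ξ, (red ξ)⁻¹}) f) :
    ∃ (s : (IsLocalRing.ResidueField A)[X]) (y : 𝒪),
      s.eval ab ≠ 0 ∧ Polynomial.aeval (red ξ) s * f = red y := by
  classical
  -- notation
  set x : F := gen ξ with hx
  set xb : E := red ξ with hxb
  have hx0 : x ≠ 0 := fun h => hxL (h ▸ isAlgebraic_zero)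
  have hxb0 : xb ≠ 0 := fun h => hxk (h ▸ isAlgebraic_zero)
  obtain ⟨ξi, hξi⟩ := hξ.exists_right_inv
  have hgenξi : gen ξi = x⁻¹ := by
    have : x * gen ξi = 1 := by rw [hx, ← map_mul, hξi, map_one]
    exact eq_inv_of_mul_eq_one_right this
  have hredξi : red ξi = xb⁻¹ := by
    have : xb * red ξi = 1 := by rw [hxb, ← map_mul, hξi, map_one]
    exact eq_inv_of_mul_eq_one_right this
  -- the centre `a₁`
  obtain ⟨a₁, ha₁res, ha₁⟩ : ∃ a₁ : A, IsLocalRing.residue A a₁ = ab ∧
      ∀ a : A, IsLocalRing.residue A a = ab → a ≠ a₁ →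
      ∀ z : F, IsIntegral (Algebra.adjoin L {x, x⁻¹}) z →
        IsIntegral (Algebra.adjoin L {x, x⁻¹}) (z ^ 2 / (x - algebraMap L F (a : L))) →
        IsIntegral (Algebra.adjoin L {x, x⁻¹}) (z / (x - algebraMap L F (a : L))) := by
    obtain ⟨a₀, ha₀⟩ := hbranch
    by_cases h : IsLocalRing.residue A a₀ = ab
    · exact ⟨a₀, h, ha₀⟩
    · obtain ⟨a₁, ha₁⟩ := IsLocalRing.residue_surjective (R := A) ab
      refine ⟨a₁, ha₁, fun a ha _ => ha₀ a ha ?_⟩
      rintro rfl
      exact h ha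
  have ha₁res0 : IsLocalRing.residue A a₁ ≠ 0 := by rw [ha₁res]; exact hab
  have ha₁unit : IsUnit a₁ := by
    by_contra h
    exact ha₁res0 ((IsLocalRing.residue_eq_zero_iff a₁).mpr
      ((IsLocalRing.mem_maximalIdeal a₁).mpr h))
  have ha₁L : (a₁ : L) ≠ 0 := by
    intro h
    apply ha₁res0
    have : a₁ = 0 := Subtype.ext h
    rw [this, map_zero]
  -- the exponent `m`
  obtain ⟨m, hm, hmk⟩ : ∃ m : ℕ, 2 ≤ m ∧ (m : IsLocalRing.ResidueField A) ≠ 0 := by
    by_cases h2 : (2 : IsLocalRing.ResidueField A) = 0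
    · refine ⟨3, by norm_num, ?_⟩
      have : ((3 : ℕ) : IsLocalRing.ResidueField A) = 2 + 1 := by norm_num
      rw [this, h2, zero_add]
      exact one_ne_zero
    · exact ⟨2, le_rfl, by exact_mod_cast h2⟩
  have hm1 : 1 ≤ m := by omega
  -- the new coordinate
  set η : 𝒪 := (ξ - cst a₁) ^ m * ξi with hη
  have hgenη : gen η = (x - algebraMap L F (a₁ : L)) ^ m / x := by
    rw [hη, map_mul, map_pow, map_sub, hgen_cst, hgenξi, div_eq_mul_inv]
  have hredη : red η = (xb - algebraMap (IsLocalRing.ResidueField A) E ab) ^ m / xb := by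
    rw [hη, map_mul, map_pow, map_sub, hred_cst, hredξi, ha₁res, div_eq_mul_inv]
  have := hFfin
  have := hEfin
  have := hEsep
  -- apply `spec_poly` to `η` at the point `0`
  have key := hpoly cst gen red hgen hgen_cst hred_cst η
    (by rw [hgenη]; exact transcendental_w hxL ha₁L m)
    (by rw [hredη]; exact transcendental_w hxk hab m)
    (by rw [hgenη]; exact finiteDimensional_over_w hxL ha₁L hm1)
    (by rw [hredη]; exact finiteDimensional_over_w hxk hab hm1)
    (by rw [hredη]; exact isSeparable_over_w hxk hab hm1)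
    (by rw [hgenη, hredη, (finrank_adjoin_w hxL ha₁L hm1).2, (finrank_adjoin_w hxk hab hm1).2, hdeg])
    hker
    (exists_fg_eta A cst ξ ξi hξi a₁ ha₁unit hm hfg)
    (fun f' hf' => hint f' (by
      rw [hgenη] at hf'
      exact (isIntegral_w_iff hx0 ha₁L hm f').mp hf'))
    hfrac 0
    ⟨0, fun c hc hc0 z hz hz2 => by
      rw [hgenη] at hz hz2 ⊢
      have hcm : c ∈ IsLocalRing.maximalIdeal A := (IsLocalRing.residue_eq_zero_iff c).mp hc
      refine unbranched_w hxL ha₁L hm (c : L) ?_ ?_ z hz hz2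
      · intro β hβ
        exact (root_facts A a₁ c hcm hc0 hm hmk ha₁res0 β hβ).2
      · intro α hα
        obtain ⟨⟨α', rfl, hres, hne⟩, -⟩ := root_facts A a₁ c hcm hc0 hm hmk ha₁res0 α hα
        exact ha₁ α' (hres.trans ha₁res) hne⟩
    f (by rw [hredη]; exact (isIntegral_w_iff hxb0 hab hm f).mpr hf)
  obtain ⟨s, y, hs0, hsy⟩ := key
  obtain ⟨s', d, hs', hs'eq⟩ := exists_poly_transfer xb hxb0 ab hab hm1 s hs0
  refine ⟨s', ξ ^ d * y, hs', ?_⟩
  rw [hs'eq, map_mul, map_pow, ← hsy, hredη, mul_assoc]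

end Final

end Fermat.Agent.S18.T5151
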